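/-
Programme T1B (S44), brick ELOCM (multiplicative `E`-side at `p ∣ abc`), item (d) of report 860
(helper23): the NODE TRANSLATE estimate on the model curve `Wab a b : Y² = X³ + a X² + b X`
(`v a = 1`, `v 2 = 1`, `v b < 1`).

If `Q = (x₁, y₁)` lies on the annulus `v b < v x₁ < 1` (i.e. reduces to the node) and
`c = (x₂, y₂)` lies in the kernel of reduction `E₁` (`1 < v x₂`), then
`v (x(Q + c) - x(Q)) = v (x(Q)) * v (z(c))`, `z(c) = -x₂ / y₂`.

This is the multiplicative twin of `Fermat.Agent.T1.ELoc63.Translate.val_add_some`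
(good ordinary case, where the factor `v (x(Q))` is `1`).
-/
import Mathlib
import Fermat.Agent.S05.Defs
import Fermat.Agent.T1.ELoc63.Translate

set_option autoImplicit false

open WeierstrassCurve WeierstrassCurve.Affine

namespace Fermat.Agent.T1B.ELocM23.NodeTranslate

open Fermat.Agent.S05

section Val

variable {K : Type*} [Field K] {Γ₀ : Type*} [LinearOrderedCommGroupWithZero Γ₀]
  {v : Valuation K Γ₀} {a b : K}

/-- `v (x + a + b / x) = 1` on the annulus `v b < v x < 1`. -/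
theorem val_annulus_factor (ha : v a = 1) {x : K} (hxb : v b < v x) (hx1 : v x < 1) :
    v (x + a + b / x) = 1 := by
  have hx0 : 0 < v x := lt_of_le_of_lt zero_le hxb
  have h1 : v (x + a) = 1 := by
    rw [add_comm, v.map_add_eq_of_lt_left (by rw [ha]; exact hx1), ha]
  have h2 : v (b / x) < 1 := by
    rw [map_div₀, div_lt_one₀ hx0]; exact hxb
  rw [v.map_add_eq_of_lt_left (by rw [h1]; exact h2), h1]

/-- On the annulus `v b < v x < 1` an affine point `(x, y)` of `Wab a b` has `v y = v x`. -/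
theorem val_y_annulus (ha : v a = 1) {x y : K} (h : (Wab a b).toAffine.Equation x y)
    (hxb : v b < v x) (hx1 : v x < 1) : v y = v x := by
  have hx0 : 0 < v x := lt_of_le_of_lt zero_le hxb
  have hxne : x ≠ 0 := by
    rintro rfl
    simp at hx0
  have heq : y ^ 2 = x ^ 2 * (x + a + b / x) := by
    rw [(Wab_equation_iff x y).mp h]
    field_simp
  have hv : v y ^ 2 = v x ^ 2 := by
    rw [← map_pow, heq, map_mul, map_pow, val_annulus_factor ha hxb hx1, mul_one]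
  exact (pow_left_inj₀ zero_le zero_le two_ne_zero).mp hv

/-- In the kernel of reduction of `Wab a b` (`1 < v x`, integral `a`, `b`) one has
`v y ^ 2 = v x ^ 3`. -/
theorem val_y_sq_kernel (ha : v a ≤ 1) (hb : v b ≤ 1) {x y : K}
    (h : (Wab a b).toAffine.Equation x y) (hx : 1 < v x) : v y ^ 2 = v x ^ 3 := by
  have hx0 : 0 < v x := lt_trans zero_lt_one hx
  have heq := (Wab_equation_iff x y).mp h
  have h1 : v (a * x ^ 2) < v (x ^ 3) := by
    rw [map_mul, map_pow, map_pow]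
    calc v a * v x ^ 2 ≤ 1 * v x ^ 2 := by gcongr
      _ = v x ^ 2 := one_mul _
      _ < v x ^ 3 := pow_lt_pow_right₀ hx (by norm_num)
  have h2 : v (b * x) < v (x ^ 3) := by
    rw [map_mul, map_pow]
    calc v b * v x ≤ 1 * v x := by gcongr
      _ = v x ^ 1 := by rw [one_mul, pow_one]
      _ < v x ^ 3 := pow_lt_pow_right₀ hx (by norm_num)
  rw [← map_pow, heq, v.map_add_eq_of_lt_left, v.map_add_eq_of_lt_left h1, map_pow]
  rw [v.map_add_eq_of_lt_left h1]; exact h2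

/-- **Node translate (coordinates).** -/
theorem val_addX_sub_node (h2 : v (2 : K) = 1) (ha : v a = 1) (hb : v b < 1) {x₁ y₁ x₂ y₂ : K}
    (h₁ : (Wab a b).toAffine.Equation x₁ y₁) (h₂ : (Wab a b).toAffine.Equation x₂ y₂)
    (hxb : v b < v x₁) (hx1 : v x₁ < 1) (hx₂ : 1 < v x₂) :
    x₁ ≠ x₂ ∧
      v ((Wab a b).toAffine.addX x₁ x₂ ((y₁ - y₂) / (x₁ - x₂)) - x₁) = v x₁ * v (-x₂ / y₂) := by
  have hx10 : 0 < v x₁ := lt_of_le_of_lt zero_le hxb
  have hx20 : 0 < v x₂ := lt_trans zero_lt_one hx₂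
  have hy1 : v y₁ = v x₁ := val_y_annulus ha h₁ hxb hx1
  have hy2sq : v y₂ ^ 2 = v x₂ ^ 3 := val_y_sq_kernel ha.le hb.le h₂ hx₂
  have hy20 : 0 < v y₂ := by
    rcases (zero_le (a := v y₂)).lt_or_eq with h | h
    · exact h
    · rw [← h] at hy2sq
      have h0 : v x₂ ^ 3 = 0 := by rw [← hy2sq]; simp
      exact absurd ((pow_eq_zero_iff three_ne_zero).mp h0) hx20.ne'
  -- `v x₂ < v y₂`
  have hxy : v x₂ < v y₂ := by
    by_contra hle
    push Not at hle
    have : v y₂ ^ 2 ≤ v x₂ ^ 2 := pow_le_pow_left₀ zero_le hle 2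
    rw [hy2sq] at this
    exact absurd this (not_le.mpr (pow_lt_pow_right₀ hx₂ (by norm_num)))
  have hne : x₁ ≠ x₂ := by
    rintro rfl
    exact absurd hx1 (not_lt.mpr hx₂.le)
  refine ⟨hne, ?_⟩
  have hid := Fermat.Agent.T1.ELoc63.Translate.addX_sub_mul_sq h₁ h₂ hne
  simp only [Wab_a₁, Wab_a₂, Wab_a₃, Wab_a₄, Wab_a₆, zero_mul, add_zero, mul_zero, sub_zero,
    zero_add] at hid
  -- main term
  have hT1 : v (-y₂ * (2 * y₁)) = v y₂ * v x₁ := by
    rw [map_mul, Valuation.map_neg, map_mul, h2, one_mul, hy1]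
  have hc : v (3 * x₁ ^ 2 + 2 * a * x₁ + b) ≤ v x₁ := by
    refine v.map_add_le (v.map_add_le ?_ ?_) hxb.le
    · rw [map_mul, map_pow, sq]
      calc v 3 * (v x₁ * v x₁) ≤ 1 * (1 * v x₁) := by
            gcongr
            exact Fermat.Agent.S05.Kernel.vle_ofNat_three
        _ = v x₁ := by rw [one_mul, one_mul]
    · rw [map_mul, map_mul, h2, ha, one_mul, one_mul]
  have hT2 : v (x₂ * (3 * x₁ ^ 2 + 2 * a * x₁ + b)) < v y₂ * v x₁ := by
    rw [map_mul]
    calc v x₂ * v (3 * x₁ ^ 2 + 2 * a * x₁ + b) ≤ v x₂ * v x₁ := by gcongr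
      _ < v y₂ * v x₁ := by gcongr
  have hT3 : v (b * x₁ - x₁ ^ 3) < v y₂ * v x₁ := by
    have hy21 : 1 < v y₂ := lt_trans hx₂ hxy
    have h3 : v (b * x₁ - x₁ ^ 3) ≤ v x₁ := by
      refine v.map_sub_le ?_ ?_
      · rw [map_mul]
        calc v b * v x₁ ≤ 1 * v x₁ := by gcongr
          _ = v x₁ := one_mul _
      · rw [map_pow]
        calc v x₁ ^ 3 = v x₁ ^ 2 * v x₁ := pow_succ _ 2
          _ ≤ 1 * v x₁ := by
            gcongr
            exact pow_le_one₀ zero_le hx1.le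
          _ = v x₁ := one_mul _
    calc v (b * x₁ - x₁ ^ 3) ≤ v x₁ := h3
      _ = 1 * v x₁ := (one_mul _).symm
      _ < v y₂ * v x₁ := by gcongr
  have hR : v (-y₂ * (2 * y₁) + x₂ * (3 * x₁ ^ 2 + 2 * a * x₁ + b) + (b * x₁ - x₁ ^ 3))
      = v y₂ * v x₁ := by
    rw [v.map_add_eq_of_lt_left, v.map_add_eq_of_lt_left, hT1]
    · rw [hT1]; exact hT2
    · rw [v.map_add_eq_of_lt_left (by rw [hT1]; exact hT2), hT1]; exact hT3
  have hden : v (x₁ - x₂) = v x₂ := by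
    rw [Valuation.map_sub_swap]
    exact v.map_sub_eq_of_lt_left (lt_trans hx1 hx₂)
  have hmul : v ((Wab a b).toAffine.addX x₁ x₂ ((y₁ - y₂) / (x₁ - x₂)) - x₁) * v x₂ ^ 2
      = v y₂ * v x₁ := by
    rw [← hden, ← map_pow, ← map_mul, hid, hR]
  have hz : v (-x₂ / y₂) = v x₂ / v y₂ := by rw [map_div₀, Valuation.map_neg]
  rw [hz]
  have hx2ne : v x₂ ^ 2 ≠ 0 := pow_ne_zero 2 hx20.ne'
  have hyne : v y₂ ≠ 0 := hy20.ne'
  rw [mul_div_assoc', eq_div_iff hyne]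
  have h3 : v ((Wab a b).toAffine.addX x₁ x₂ ((y₁ - y₂) / (x₁ - x₂)) - x₁) * v y₂ * v x₂ ^ 2
      = v x₁ * v x₂ * v x₂ ^ 2 := by
    calc v ((Wab a b).toAffine.addX x₁ x₂ ((y₁ - y₂) / (x₁ - x₂)) - x₁) * v y₂ * v x₂ ^ 2
        = (v ((Wab a b).toAffine.addX x₁ x₂ ((y₁ - y₂) / (x₁ - x₂)) - x₁) * v x₂ ^ 2) * v y₂ :=
          mul_right_comm _ _ _
      _ = v x₁ * v y₂ ^ 2 := by rw [hmul, sq, mul_comm (v y₂) (v x₁), mul_assoc]
      _ = v x₁ * v x₂ * v x₂ ^ 2 := by rw [hy2sq, pow_succ' (v x₂) 2, mul_assoc]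
  exact mul_right_cancel₀ hx2ne h3

variable [DecidableEq K]

/-- **Node translate (points).**  `Q = (x₁, y₁)` on the annulus `v b < v x₁ < 1`, `c = (x₂, y₂)`
in the kernel of reduction: `Q + c` is an affine point whose `x`-coordinate differs from `x(Q)`
by exactly `v (x(Q)) * v (z(c))`; in particular it stays on the same circle `v x = v x₁`. -/
theorem val_add_some_node (h2 : v (2 : K) = 1) (ha : v a = 1) (hb : v b < 1) {x₁ y₁ x₂ y₂ : K}
    (h₁ : (Wab a b).toAffine.Nonsingular x₁ y₁) (h₂ : (Wab a b).toAffine.Nonsingular x₂ y₂)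
    (hxb : v b < v x₁) (hx1 : v x₁ < 1) (hx₂ : 1 < v x₂) :
    ∃ (x₃ y₃ : K) (h₃ : (Wab a b).toAffine.Nonsingular x₃ y₃),
      Point.some x₁ y₁ h₁ + Point.some x₂ y₂ h₂ = Point.some x₃ y₃ h₃ ∧
        v (x₃ - x₁) = v x₁ * v (-x₂ / y₂) ∧ v x₃ = v x₁ := by
  obtain ⟨hne, hval⟩ := val_addX_sub_node h2 ha hb h₁.1 h₂.1 hxb hx1 hx₂
  have hxy : ¬(x₁ = x₂ ∧ y₁ = (Wab a b).toAffine.negY x₂ y₂) := fun h => hne h.1
  refine ⟨_, _, nonsingular_add h₁ h₂ hxy, Point.add_some hxy, ?_, ?_⟩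
  · rw [slope_of_X_ne hne]
    exact hval
  · rw [slope_of_X_ne hne]
    -- `v (z(c)) < 1`, hence `v (x₃ - x₁) < v x₁`
    have hx10 : 0 < v x₁ := lt_of_le_of_lt zero_le hxb
    have hx20 : 0 < v x₂ := lt_trans zero_lt_one hx₂
    have hy2sq : v y₂ ^ 2 = v x₂ ^ 3 := val_y_sq_kernel ha.le hb.le h₂.1 hx₂
    have hxy' : v x₂ < v y₂ := by
      by_contra hle
      push Not at hle
      have : v y₂ ^ 2 ≤ v x₂ ^ 2 := pow_le_pow_left₀ zero_le hle 2
      rw [hy2sq] at this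
      exact absurd this (not_le.mpr (pow_lt_pow_right₀ hx₂ (by norm_num)))
    have hz : v (-x₂ / y₂) < 1 := by
      rw [map_div₀, Valuation.map_neg, div_lt_one₀ (lt_trans hx20 hxy')]; exact hxy'
    have hlt : v ((Wab a b).toAffine.addX x₁ x₂ ((y₁ - y₂) / (x₁ - x₂)) - x₁) < v x₁ := by
      rw [hval]
      calc v x₁ * v (-x₂ / y₂) < v x₁ * 1 := by gcongr
        _ = v x₁ := mul_one _
    have : (Wab a b).toAffine.addX x₁ x₂ ((y₁ - y₂) / (x₁ - x₂))
        = x₁ + ((Wab a b).toAffine.addX x₁ x₂ ((y₁ - y₂) / (x₁ - x₂)) - x₁) := by ring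
    rw [this, v.map_add_eq_of_lt_left hlt]

end Val

end Fermat.Agent.T1B.ELocM23.NodeTranslate
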